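import Mathlib
import Fermat.Prelude.Def_FormalHecke_Eigensystem

set_option autoImplicit false

/-! S46: multiplicative sequences. -/

namespace Fermat.Agent.S46a

/-- values at prime powers -/
def pw (e a : ℕ → ℤ) (p : ℕ) : ℕ → ℤ
  | 0 => 1
  | 1 => a p
  | (r + 2) => a p * pw e a p (r + 1) - e p * pw e a p r

/-- the multiplicative sequence -/
def mr (e a : ℕ → ℤ) (n : ℕ) : ℤ :=
  if n = 0 then 0 else n.factorization.prod (fun p r => pw e a p r)

variable (e a : ℕ → ℤ)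

@[simp] theorem pw_zero (p : ℕ) : pw e a p 0 = 1 := by rw [pw]
@[simp] theorem pw_one (p : ℕ) : pw e a p 1 = a p := by rw [pw]
theorem pw_add_two (p r : ℕ) : pw e a p (r + 2) = a p * pw e a p (r + 1) - e p * pw e a p r := by
  rw [pw]

@[simp] theorem mr_zero : mr e a 0 = 0 := if_pos rfl

@[simp] theorem mr_one : mr e a 1 = 1 := by
  rw [mr, if_neg one_ne_zero, Nat.factorization_one, Finsupp.prod_zero_index]

theorem mr_mul {m n : ℕ} (h : m.Coprime n) : mr e a (m * n) = mr e a m * mr e a n := by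
  rcases Nat.eq_zero_or_pos m with rfl | hm
  · rw [zero_mul, mr_zero, zero_mul]
  rcases Nat.eq_zero_or_pos n with rfl | hn
  · rw [mul_zero, mr_zero, mul_zero]
  rw [mr, mr, mr, if_neg (mul_ne_zero hm.ne' hn.ne'), if_neg hm.ne', if_neg hn.ne',
    Nat.factorization_mul_of_coprime h, Finsupp.prod_add_index_of_disjoint]
  exact h.disjoint_primeFactors

theorem mr_pow {p : ℕ} (hp : p.Prime) (r : ℕ) : mr e a (p ^ r) = pw e a p r := by
  rw [mr, if_neg (pow_ne_zero _ hp.ne_zero), hp.factorization_pow,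
    Finsupp.prod_single_index (pw_zero e a p)]

theorem mr_prime {p : ℕ} (hp : p.Prime) : mr e a p = a p := by
  have := mr_pow e a hp 1
  rwa [pow_one, pw_one] at this

theorem isEigensystem_mr (e' : ℕ → ℤ) (he : ∀ ℓ : ℕ, ℓ.Prime → e' ℓ = e ℓ) :
    FormalHecke.IsEigensystem e' (mr e a) := by
  refine ⟨mr_one e a, fun ℓ hℓ n => ?_⟩
  rw [he ℓ hℓ]
  rcases Nat.eq_zero_or_pos n with rfl | hn
  · simp
  obtain ⟨r, m, hm, rfl⟩ := Nat.exists_eq_pow_mul_and_not_dvd hn.ne' ℓ hℓ.ne_one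
  have hcop : ∀ s : ℕ, (ℓ ^ s).Coprime m := fun s =>
    Nat.Coprime.pow_left s ((Nat.Prime.coprime_iff_not_dvd hℓ).2 hm)
  rw [mr_prime e a hℓ, ← mul_assoc, ← pow_succ', mr_mul e a (hcop _), mr_mul e a (hcop _),
    mr_pow e a hℓ, mr_pow e a hℓ]
  rcases r with _ | s
  · rw [if_neg (by simpa using hm)]
    simp
  · have hd : ℓ ^ (s + 1) * m = ℓ * (ℓ ^ s * m) := by rw [pow_succ', mul_assoc]
    rw [if_pos (hd ▸ Dvd.intro _ rfl), hd,
      Nat.mul_div_cancel_left _ hℓ.pos, mr_mul e a (hcop _), mr_pow e a hℓ, pw_add_two]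
    ring

theorem pw_mod {e' : ℕ → ℤ} {p : ℕ} (h : ((e p : ℤ) : ZMod 3) = (e' p : ℤ)) : ∀ r : ℕ,
    ((pw e a p r : ℤ) : ZMod 3) = (pw e' a p r : ℤ)
  | 0 => by simp
  | 1 => by simp
  | (r + 2) => by
    rw [pw_add_two, pw_add_two]
    push_cast
    rw [pw_mod h r, pw_mod h (r + 1), h]

theorem mr_mod {e' : ℕ → ℤ} (h : ∀ p, ((e p : ℤ) : ZMod 3) = (e' p : ℤ)) (n : ℕ) :
    (3 : ℤ) ∣ mr e a n - mr e' a n := by
  refine (ZMod.intCast_eq_intCast_iff_dvd_sub (mr e' a n) (mr e a n) 3).1 ?_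
  rw [mr, mr]
  split_ifs
  · rfl
  · rw [Finsupp.prod, Finsupp.prod, Int.cast_prod, Int.cast_prod]
    exact Finset.prod_congr rfl fun p _ => (pw_mod e a (h p) _).symm

/-- recognition of the sequence -/
theorem eq_mr (b : ℕ → ℂ) (h0 : b 0 = 0) (h1 : b 1 = 1)
    (hm : ∀ m n : ℕ, m.Coprime n → b (m * n) = b m * b n)
    (hp : ∀ p : ℕ, p.Prime → b p = a p)
    (hr : ∀ p r : ℕ, p.Prime → b (p ^ (r + 2)) = b p * b (p ^ (r + 1)) - e p * b (p ^ r))
    (n : ℕ) : b n = (mr e a n : ℂ) := by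
  have hpow : ∀ (p : ℕ), p.Prime → ∀ r : ℕ, b (p ^ r) = (pw e a p r : ℂ) := by
    intro p hpp r
    induction r using Nat.strong_induction_on with
    | _ r ih =>
      rcases r with _ | _ | r
      · rw [pow_zero, h1, pw_zero]; simp
      · rw [zero_add, pow_one, hp p hpp, pw_one]
      · rw [hr p r hpp, ih r (by omega), ih (r + 1) (by omega), hp p hpp, pw_add_two]
        push_cast
        ring
  induction n using Nat.recOnPosPrimePosCoprime with
  | prime_pow p n hpp _ => rw [hpow p hpp, mr_pow e a hpp]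
  | zero => rw [h0, mr_zero]; simp
  | one => rw [h1, mr_one]; simp
  | coprime m n _ _ h ihm ihn => rw [hm m n h, ihm, ihn, mr_mul e a h]; push_cast; rfl

end Fermat.Agent.S46a
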