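import Fermat.Agent.S46a.Scale
import Fermat.Agent.S46a.Seq
import Fermat.Agent.ModAll.Final
import Fermat.Prelude.Def_CuspForm_IntegralLattice

set_option autoImplicit false

/-! S46: weight one eigensystem mod 3 from modularity. -/

open CuspForm CongruenceSubgroup ModularFormClass EisensteinWeightOne FormalHecke
open Fermat.Agent.DS

namespace Fermat.Agent.S46a

theorem hasIntegralBasis (N : ℕ) [NeZero N] : CuspForm.HasIntegralBasis N := by
  have h : CuspForm.HasIntegralStructure N 2 := Fermat.Agent.IntStr.hasIntegralStructure N 2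
  rw [CuspForm.HasIntegralBasis, eq_top_iff, ← (h : Submodule.span ℂ _ = ⊤)]
  apply Submodule.span_mono
  intro f hf n
  rw [SetLike.mem_coe, mem_intLattice] at hf
  obtain ⟨m, hm⟩ := hf n
  exact Subring.mem_bot.2 ⟨m, hm.symm⟩

theorem coeff_bridge (a : ℕ → ℤ) (n : ℕ) : (3 : ℤ) ∣ (bridgeProduct a).coeff n - a n := by
  rw [bridgeProduct, PowerSeries.coeff_mul]
  have hmem : (n, 0) ∈ Finset.HasAntidiagonal.antidiagonal n := by simp
  rw [← Finset.add_sum_erase _ _ hmem]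
  have h0 : (PowerSeries.coeff 0) (e1Chi3In ℤ) = 1 := by
    simp [e1Chi3In, e1Chi3]
  rw [PowerSeries.coeff_mk]
  simp only [h0, mul_one]
  rw [add_sub_cancel_left]
  apply Finset.dvd_sum
  rintro ⟨i, j⟩ hij
  rw [Finset.mem_erase, Finset.HasAntidiagonal.mem_antidiagonal] at hij
  have hj : j ≠ 0 := by
    rintro rfl
    apply hij.1
    have := hij.2
    simp only [add_zero] at this
    rw [this]
  have : (PowerSeries.coeff j) (e1Chi3In ℤ) = 6 * sigmaChi j := by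
    simp [e1Chi3In, e1Chi3, hj]
  simp only [this]
  exact Dvd.dvd.mul_left (Dvd.dvd.mul_right (by norm_num) _) _

theorem three_dvd_chi (p : ℕ) : (3 : ℤ) ∣ (p : ℤ) - chiNegThree p := by
  unfold chiNegThree
  split_ifs with h1 h2
  · omega
  · omega
  · omega

/-- eigenform: `a (p n) = a p * a n` for `p ∣ N` -/
theorem qCoeff_mul_of_dvd {N : ℕ} {f : CuspForm (Gamma0 N) 2} (hf : f.IsNormalizedEigenform)
    {p : ℕ} (hp : p.Prime) (hpN : p ∣ N) (n : ℕ) :
    qCoeff f (p * n) = qCoeff f p * qCoeff f n := by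
  rcases Nat.eq_zero_or_pos n with rfl | hn
  · rw [mul_zero, qCoeff_zero_eq, mul_zero]
  obtain ⟨r, m, hm, rfl⟩ := Nat.exists_eq_pow_mul_and_not_dvd hn.ne' p hp.ne_one
  have hcop : ∀ s : ℕ, (p ^ s).Coprime m := fun s =>
    Nat.Coprime.pow_left s ((Nat.Prime.coprime_iff_not_dvd hp).2 hm)
  rw [← mul_assoc, ← pow_succ', hf.qCoeff_mul_of_coprime _ _ (hcop _),
    hf.qCoeff_mul_of_coprime _ _ (hcop _), ← mul_assoc]
  congr 1
  rcases r with _ | s
  · rw [pow_zero, hf.qCoeff_one, zero_add, pow_one, mul_one]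
  · exact hf.qCoeff_prime_pow_of_dvd p s hp hpN

theorem not_cube_dvd {N : ℕ} (hN : Squarefree N) {q : ℕ} (hq : q.Prime) : ¬ q ^ 3 ∣ N * N := by
  intro h
  have hN0 := hN.ne_zero
  have h1 := (hq.pow_dvd_iff_le_factorization (mul_ne_zero hN0 hN0)).1 h
  rw [Nat.factorization_mul hN0 hN0, Finsupp.add_apply] at h1
  have h2 := hN.natFactorization_le_one q
  omega

theorem main (W : WeierstrassCurve ℤ) (hΔ : W.Δ ≠ 0) (hW : W.IsSemistableModel) :
      ∃ (N : ℕ) (_ : NeZero N) (a : ℕ → ℤ),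
        CuspForm.HasIntegralBasis N ∧
        FormalHecke.IsEigensystem
          (fun ℓ => if ℓ ∣ N then 0 else ((chiNegThree ℓ : ℤ) : ℤ)) a ∧
        CuspForm.IsLatticeRealized N a ∧
        (∀ q : ℕ, q.Prime → q ≠ 3 → ¬ q ^ 3 ∣ N) ∧
        ∀ ℓ : ℕ, ℓ.Prime → W.IsGoodPrimeFor ℓ → ¬ ℓ ∣ N → ℓ ≠ 3 →
          (3 : ℤ) ∣ (a ℓ - W.apOfModel ℓ) := by
  obtain ⟨N, hsq, hbad, f, hf, hfa⟩ := Fermat.Agent.ModAll.modAll W hΔ hW
  have hN0 : N ≠ 0 := hsq.ne_zero
  have : NeZero N := ⟨hN0⟩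
  have hNN : NeZero (N * N) := ⟨mul_ne_zero hN0 hN0⟩
  obtain ⟨g, hg⟩ : ∃ g : CuspForm (Gamma0 (N * N)) 2, ∀ n, qCoeff g n =
      if ∀ p ∈ N.primeFactors, ¬ p ∣ n then qCoeff f n else 0 := by
    have := exists_deplete_finset f N.primeFactors (fun p hp => Nat.prime_of_mem_primeFactors hp)
      (fun p => qCoeff f p) (fun p hp n => qCoeff_mul_of_dvd hf (Nat.prime_of_mem_primeFactors hp)
        (Nat.dvd_of_mem_primeFactors hp) n)
    rwa [Nat.prod_primeFactors_of_squarefree hsq] at this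
  -- the sequences
  let e : ℕ → ℤ := fun ℓ => if ℓ ∣ N then 0 else (ℓ : ℤ)
  let e' : ℕ → ℤ := fun ℓ => if ℓ ∣ N then 0 else chiNegThree ℓ
  let A : ℕ → ℤ := fun ℓ => if ℓ ∣ N then 0 else W.apOfModel ℓ
  have hgood : ∀ p : ℕ, p.Prime → ¬ p ∣ N → qCoeff f p = (W.apOfModel p : ℂ) := by
    intro p hp hpN
    exact hfa p hp (fun h => hpN ((hbad p hp).2 h)) hpN
  have hPp : ∀ p : ℕ, p.Prime → ((∀ q ∈ N.primeFactors, ¬ q ∣ p) ↔ ¬ p ∣ N) := by
    intro p hp
    constructor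
    · intro h hpN
      exact h p (Nat.mem_primeFactors.2 ⟨hp, hpN, hN0⟩) dvd_rfl
    · intro h q hq hqp
      rw [(Nat.prime_dvd_prime_iff_eq (Nat.prime_of_mem_primeFactors hq) hp).1 hqp] at hq
      exact h (Nat.dvd_of_mem_primeFactors hq)
  have hPm : ∀ m n : ℕ, (∀ q ∈ N.primeFactors, ¬ q ∣ m * n) ↔
      (∀ q ∈ N.primeFactors, ¬ q ∣ m) ∧ (∀ q ∈ N.primeFactors, ¬ q ∣ n) := by
    intro m n
    constructor
    · intro h
      exact ⟨fun q hq hm => h q hq (hm.mul_right _), fun q hq hn => h q hq (hn.mul_left _)⟩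
    · rintro ⟨h1, h2⟩ q hq h
      rcases (Nat.prime_of_mem_primeFactors hq).dvd_mul.1 h with h | h
      · exact h1 q hq h
      · exact h2 q hq h
  have hPpow : ∀ p r : ℕ, p.Prime → ((∀ q ∈ N.primeFactors, ¬ q ∣ p ^ (r + 1)) ↔ ¬ p ∣ N) := by
    intro p r hp
    rw [← hPp p hp]
    refine forall₂_congr fun q hq => not_congr ⟨fun h => ?_, fun h => dvd_pow h (Nat.succ_ne_zero r)⟩
    exact (Nat.prime_of_mem_primeFactors hq).dvd_of_dvd_pow h
  have hb : ∀ n, qCoeff g n = (mr e A n : ℂ) := by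
    refine eq_mr e A (fun n => qCoeff g n) (qCoeff_zero_eq g) ?_ ?_ ?_ ?_
    · show qCoeff g 1 = 1
      rw [hg, if_pos, hf.qCoeff_one]
      intro q hq h
      exact (Nat.prime_of_mem_primeFactors hq).one_lt.ne' (Nat.dvd_one.1 h)
    · intro m n hmn
      show qCoeff g (m * n) = qCoeff g m * qCoeff g n
      rw [hg, hg, hg]
      by_cases h1 : ∀ q ∈ N.primeFactors, ¬ q ∣ m
      · by_cases h2 : ∀ q ∈ N.primeFactors, ¬ q ∣ n
        · rw [if_pos ((hPm m n).2 ⟨h1, h2⟩), if_pos h1, if_pos h2, hf.qCoeff_mul_of_coprime m n hmn]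
        · rw [if_neg (fun h => h2 ((hPm m n).1 h).2), if_neg h2, mul_zero]
      · rw [if_neg (fun h => h1 ((hPm m n).1 h).1), if_neg h1, zero_mul]
    · intro p hp
      show qCoeff g p = ((if p ∣ N then 0 else W.apOfModel p : ℤ) : ℂ)
      rw [hg]
      by_cases h : p ∣ N
      · rw [if_neg (fun h' => (hPp p hp).1 h' h), if_pos h]; simp
      · rw [if_pos ((hPp p hp).2 h), if_neg h, hgood p hp h]
    · intro p r hp
      show qCoeff g (p ^ (r + 2)) = qCoeff g p * qCoeff g (p ^ (r + 1)) -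
        ((if p ∣ N then 0 else (p : ℤ) : ℤ) : ℂ) * qCoeff g (p ^ r)
      by_cases h : p ∣ N
      · have z1 : qCoeff g (p ^ (r + 2)) = 0 := by
          rw [hg, if_neg (fun h' => (hPpow p (r + 1) hp).1 h' h)]
        have z2 : qCoeff g (p ^ (r + 1)) = 0 := by
          rw [hg, if_neg (fun h' => (hPpow p r hp).1 h' h)]
        rw [z1, z2, if_pos h]
        simp
      · have z : ∀ s, qCoeff g (p ^ s) = qCoeff f (p ^ s) := by
          intro s
          rcases s with _ | s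
          · rw [hg, if_pos]
            intro q hq hd
            rw [pow_zero] at hd
            exact (Nat.prime_of_mem_primeFactors hq).one_lt.ne' (Nat.dvd_one.1 hd)
          · rw [hg, if_pos ((hPpow p s hp).2 h)]
        have z1 : qCoeff g p = qCoeff f p := by
          have := z 1
          rwa [pow_one] at this
        rw [z, z, z, z1, if_neg h, hf.qCoeff_prime_pow_of_not_dvd p r hp h]
        push_cast
        rfl
  have hdvd : ∀ ℓ : ℕ, ℓ.Prime → (ℓ ∣ N * N ↔ ℓ ∣ N) := fun ℓ hℓ => by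
    rw [hℓ.dvd_mul, or_self]
  refine ⟨N * N, hNN, mr e' A, hasIntegralBasis (N * N), ?_, ⟨g, ?_, mr e A, fun n => (hb n).symm, ?_⟩,
    fun q hq _ => not_cube_dvd hsq hq, ?_⟩
  · refine isEigensystem_mr e' A _ fun ℓ hℓ => ?_
    show (if ℓ ∣ N * N then 0 else ((chiNegThree ℓ : ℤ) : ℤ)) = if ℓ ∣ N then 0 else chiNegThree ℓ
    by_cases h : ℓ ∣ N
    · rw [if_pos ((hdvd ℓ hℓ).2 h), if_pos h]
    · rw [if_neg (fun h' => h ((hdvd ℓ hℓ).1 h')), if_neg h]
  · intro n
    rw [hb]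
    exact Subring.mem_bot.2 ⟨_, rfl⟩
  · intro n
    have h1 : (3 : ℤ) ∣ mr e A n - mr e' A n := by
      apply mr_mod
      intro p
      show ((if p ∣ N then 0 else (p : ℤ) : ℤ) : ZMod 3) =
        ((if p ∣ N then 0 else chiNegThree p : ℤ) : ZMod 3)
      split_ifs
      · rfl
      · refine (ZMod.intCast_eq_intCast_iff_dvd_sub _ _ 3).2 ?_
        have := three_dvd_chi p
        rw [← dvd_neg, neg_sub] at this
        exact this
    have h2 := coeff_bridge (mr e' A) n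
    have h3 : mr e A n - (bridgeProduct (mr e' A)).coeff n =
      (mr e A n - mr e' A n) - ((bridgeProduct (mr e' A)).coeff n - mr e' A n) := by ring
    rw [h3]
    exact dvd_sub h1 h2
  · intro ℓ hℓ _ hℓN _
    rw [mr_prime e' A hℓ]
    show (3 : ℤ) ∣ (if ℓ ∣ N then 0 else W.apOfModel ℓ) - W.apOfModel ℓ
    rw [if_neg (fun h => hℓN ((hdvd ℓ hℓ).2 h)), sub_self]
    exact dvd_zero _

end Fermat.Agent.S46a
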