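import Fermat.Agent.IntStr.Final
import Fermat.Agent.DS.Lattice

set_option autoImplicit false

/-! S46: the form `f(pτ)` and the removal of Euler factors. -/

open CuspForm CongruenceSubgroup ModularFormClass UpperHalfPlane ModularForm
open ConjAct Pointwise MatrixGroups
open Fermat.Agent.IntStr Fermat.Agent.DS

namespace Fermat.Agent.S46a

noncomputable section

/-- restriction to a smaller group -/
def restrictC {Γ Γ' : Subgroup (GL (Fin 2) ℝ)} {k : ℤ} (h : Γ' ≤ Γ) (f : CuspForm Γ k) :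
    CuspForm Γ' k where
  toFun := f
  slash_action_eq' γ hγ := f.slash_action_eq' γ (h hγ)
  holo' := f.holo'
  zero_at_cusps' hc := f.zero_at_cusps' (hc.mono h)

@[simp] theorem coe_restrictC {Γ Γ' : Subgroup (GL (Fin 2) ℝ)} {k : ℤ} (h : Γ' ≤ Γ)
    (f : CuspForm Γ k) : ⇑(restrictC h f) = ⇑f := rfl

theorem gamma0_le {M N : ℕ} (h : M ∣ N) :
    ((Gamma0 N).map (Matrix.SpecialLinearGroup.mapGL ℝ) : Subgroup (GL (Fin 2) ℝ)) ≤
      ((Gamma0 M).map (Matrix.SpecialLinearGroup.mapGL ℝ)) := by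
  apply Subgroup.map_mono
  intro γ hγ
  rw [Gamma0_mem] at hγ ⊢
  rw [ZMod.intCast_zmod_eq_zero_iff_dvd] at hγ ⊢
  exact (Int.natCast_dvd_natCast.2 h).trans hγ

/-- `Γ₀(Np)` is contained in the conjugate of `Γ₀(N)` -/
theorem gamma0_le_conj {N p : ℕ} (hp : p ≠ 0) :
    ((Gamma0 (N * p)).map (Matrix.SpecialLinearGroup.mapGL ℝ) : Subgroup (GL (Fin 2) ℝ)) ≤
      toConjAct (heckeDiagMatrix p)⁻¹ •
        ((Gamma0 N).map (Matrix.SpecialLinearGroup.mapGL ℝ) : Subgroup (GL (Fin 2) ℝ)) := by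
  rintro _ ⟨γ, hγ, rfl⟩
  rw [SetLike.mem_coe, Gamma0_mem] at hγ
  obtain ⟨c, hc⟩ := (ZMod.intCast_zmod_eq_zero_iff_dvd _ _).mp hγ
  have hdet : γ 0 0 * γ 1 1 - γ 0 1 * γ 1 0 = 1 := by
    have := γ.det_coe
    rwa [Matrix.det_fin_two] at this
  let γ' : SL(2, ℤ) := ⟨!![γ 0 0, p * γ 0 1; N * c, γ 1 1], by
    rw [Matrix.det_fin_two_of]
    rw [hc] at hdet
    push_cast at hdet
    linear_combination hdet⟩
  have key : heckeDiagMatrix p * (Matrix.SpecialLinearGroup.mapGL ℝ γ : GL (Fin 2) ℝ) =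
      Matrix.SpecialLinearGroup.mapGL ℝ γ' * heckeDiagMatrix p := by
    apply Units.ext
    rw [Units.val_mul, Units.val_mul, val_mapGL_eq, val_mapGL_eq, val_heckeDiagMatrix hp]
    have e00 : ((γ' 0 0 : ℤ) : ℝ) = γ 0 0 := rfl
    have e01 : ((γ' 0 1 : ℤ) : ℝ) = p * γ 0 1 := by
      have : γ' 0 1 = p * γ 0 1 := rfl
      rw [this]; push_cast; ring
    have e10 : ((γ' 1 0 : ℤ) : ℝ) = N * c := by
      have : γ' 1 0 = N * c := rfl
      rw [this]; push_cast; ring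
    have e11 : ((γ' 1 1 : ℤ) : ℝ) = γ 1 1 := rfl
    have hcR : ((γ 1 0 : ℤ) : ℝ) = N * p * c := by exact_mod_cast hc
    rw [e00, e01, e10, e11]
    ext i j
    fin_cases i <;> fin_cases j <;> simp [Matrix.mul_apply, Fin.sum_univ_two]
    · ring
    · rw [hcR]; ring
  rw [Subgroup.mem_pointwise_smul_iff_inv_smul_mem, ← map_inv, inv_inv, toConjAct_smul]
  refine ⟨γ', ?_, ?_⟩
  · rw [SetLike.mem_coe, Gamma0_mem, ZMod.intCast_zmod_eq_zero_iff_dvd]
    exact ⟨c, rfl⟩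
  · rw [key, mul_inv_cancel_right]

variable {N : ℕ} {k : ℤ}

/-- `p^{k-1} f(pτ)` -/
def scaleC (p : ℕ) (hp : p ≠ 0) (f : CuspForm (Gamma0 N) k) : CuspForm (Gamma0 (N * p)) k :=
  restrictC (gamma0_le_conj hp) (CuspForm.translate f (heckeDiagMatrix p))

theorem coe_scaleC (p : ℕ) (hp : p ≠ 0) (f : CuspForm (Gamma0 N) k) :
    ⇑(scaleC p hp f) = ⇑f ∣[k] heckeDiagMatrix p := rfl

theorem qCoeff_scaleC [NeZero N] (p : ℕ) (hp0 : p ≠ 0) (f : CuspForm (Gamma0 N) k) (n : ℕ) :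
    qCoeff (scaleC p hp0 f) n = if p ∣ n then (p : ℂ) ^ (k - 1) * qCoeff f (n / p) else 0 := by
  have hp := (isForm_of_cuspForm f).mem_perSub
  have hT : heckeT k p f ∈ perSub := ⟨ModularForm.periodic_heckeT_comp_ofComplex hp.1 k p,
    ModularForm.mdifferentiable_heckeT hp.2.1 k p,
    ModularForm.isBoundedAtImInfty_heckeT hp.2.2 k p⟩
  have hU : heckeU k p f ∈ perSub := ⟨ModularForm.periodic_heckeU_comp_ofComplex hp.1 k p,
    ModularForm.mdifferentiable_heckeU hp.2.1 k p,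
    ModularForm.isBoundedAtImInfty_heckeU hp.2.2 k p⟩
  have h1 : ⇑f ∣[k] heckeDiagMatrix p = heckeT k p f - heckeU k p f := by
    rw [heckeT_eq_heckeU_add, add_sub_cancel_left]
  have h2 : qExpansion 1 (heckeT k p f - heckeU k p f) =
      qExpansion 1 (heckeT k p f) - qExpansion 1 (heckeU k p f) :=
    map_sub qE (⟨_, hT⟩ : perSub) ⟨_, hU⟩
  have h3 := UpperHalfPlane.qCoeff_heckeT hp.1 hp.2.1 hp.2.2 k hp0 n
  have h4 := UpperHalfPlane.qCoeff_heckeU hp.1 hp.2.1 hp.2.2 k hp0 n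
  rw [coeffHeckeT_eq_coeffHeckeU_add] at h3
  rw [coe_scaleC]
  simp only [ModularFormClass.qCoeff] at h3 h4 ⊢
  rw [h1, h2, map_sub, h3, h4, add_sub_cancel_left]

/-- removal of the Euler factor at `p`, if `f` is an eigenvector of `U_p` -/
theorem exists_deplete [NeZero N] {p : ℕ} (hp : p.Prime) (f : CuspForm (Gamma0 N) k) (c : ℂ)
    (hf : ∀ n, qCoeff f (p * n) = c * qCoeff f n) :
    ∃ g : CuspForm (Gamma0 (N * p)) k, ∀ n, qCoeff g n = if p ∣ n then 0 else qCoeff f n := by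
  have hp0 : (p : ℂ) ≠ 0 := by exact_mod_cast hp.ne_zero
  let r : CuspForm (Gamma0 (N * p)) k := restrictC (gamma0_le (Dvd.intro _ rfl)) f
  refine ⟨r - (c * ((p : ℂ) ^ (k - 1))⁻¹) • scaleC p hp.ne_zero f, fun n => ?_⟩
  have h1 : qCoeff (⇑(r - (c * ((p : ℂ) ^ (k - 1))⁻¹) • scaleC p hp.ne_zero f)) n =
      qCoeff r n - (c * ((p : ℂ) ^ (k - 1))⁻¹) * qCoeff (scaleC p hp.ne_zero f) n := by
    have h2 := (coeffL (N * p) k n).map_sub r ((c * ((p : ℂ) ^ (k - 1))⁻¹) •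
      scaleC p hp.ne_zero f)
    have h3 := (coeffL (N * p) k n).map_smul (c * ((p : ℂ) ^ (k - 1))⁻¹) (scaleC p hp.ne_zero f)
    rw [h3] at h2
    exact h2
  have h4 : qCoeff r n = qCoeff f n := rfl
  rw [h1, h4, qCoeff_scaleC]
  split_ifs with h
  · obtain ⟨m, rfl⟩ := h
    rw [hf m, Nat.mul_div_cancel_left m hp.pos, mul_assoc, inv_mul_cancel_left₀ (zpow_ne_zero _ hp0),
      sub_self]
  · rw [mul_zero, sub_zero]

/-- removal of the Euler factors at a finite set of primes -/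
theorem exists_deplete_finset [hN : NeZero N] (f : CuspForm (Gamma0 N) k) (S : Finset ℕ)
    (hS : ∀ p ∈ S, p.Prime) (c : ℕ → ℂ) (hf : ∀ p ∈ S, ∀ n, qCoeff f (p * n) = c p * qCoeff f n) :
    ∃ g : CuspForm (Gamma0 (N * ∏ p ∈ S, p)) k,
      ∀ n, qCoeff g n = if ∀ p ∈ S, ¬ p ∣ n then qCoeff f n else 0 := by
  classical
  induction S using Finset.induction_on with
  | empty =>
    refine ⟨restrictC (gamma0_le (Dvd.intro _ rfl)) f, fun n => ?_⟩
    rw [if_pos (fun p hp => absurd hp (Finset.notMem_empty p))]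
    rfl
  | insert q S hq ih =>
    obtain ⟨g, hg⟩ := ih (fun p hp => hS p (Finset.mem_insert_of_mem hp))
      (fun p hp => hf p (Finset.mem_insert_of_mem hp))
    have hqp : q.Prime := hS q (Finset.mem_insert_self _ _)
    have hprod : N * ∏ p ∈ S, p ≠ 0 := by
      refine mul_ne_zero hN.out (Finset.prod_ne_zero_iff.2 fun p hp => ?_)
      exact (hS p (Finset.mem_insert_of_mem hp)).ne_zero
    have : NeZero (N * ∏ p ∈ S, p) := ⟨hprod⟩
    obtain ⟨g', hg'⟩ := exists_deplete hqp g (c q) (fun n => by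
      rw [hg, hg, hf q (Finset.mem_insert_self _ _)]
      have : (∀ p ∈ S, ¬ p ∣ q * n) ↔ (∀ p ∈ S, ¬ p ∣ n) := by
        refine forall₂_congr fun p hp => not_congr ?_
        have hpp : p.Prime := hS p (Finset.mem_insert_of_mem hp)
        rw [hpp.dvd_mul]
        constructor
        · rintro (h | h)
          · exact absurd ((Nat.prime_dvd_prime_iff_eq hpp hqp).1 h) (by rintro rfl; exact hq hp)
          · exact h
        · exact Or.inr
      by_cases h : ∀ p ∈ S, ¬ p ∣ n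
      · rw [if_pos (this.2 h), if_pos h]
      · rw [if_neg (fun h' => h (this.1 h')), if_neg h, mul_zero])
    have e : N * ∏ p ∈ insert q S, p = (N * ∏ p ∈ S, p) * q := by
      rw [Finset.prod_insert hq]; ring
    rw [e]
    refine ⟨g', fun n => ?_⟩
    rw [hg', hg]
    by_cases h1 : q ∣ n
    · rw [if_pos h1, if_neg]
      intro h2
      exact h2 q (Finset.mem_insert_self _ _) h1
    · rw [if_neg h1]
      by_cases h2 : ∀ p ∈ S, ¬ p ∣ n
      · rw [if_pos h2, if_pos]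
        intro p hp
        rcases Finset.mem_insert.1 hp with rfl | hp
        · exact h1
        · exact h2 p hp
      · rw [if_neg h2, if_neg]
        intro h3
        exact h2 fun p hp => h3 p (Finset.mem_insert_of_mem hp)

end

end Fermat.Agent.S46a
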